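/-
S31 long shot (helper8), brick (1a): elementary group theory for the weak Chebotarev theorem.
In a finite cyclic (commutative) group, an element that is an `r`-th power for no prime `r` dividing
the order is a generator; and being a `d`-th power for a squarefree `d = ∏ r` is the same as being
an `r`-th power for every prime factor `r`.
-/
import Mathlib

set_option autoImplicit false

namespace Fermat.Agent.S31lib

variable {G : Type*} [CommGroup G]

/-- for coprime `a b`, an element which is both an `a`-th and a `b`-th power is an `ab`-th power. -/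
theorem mem_range_pow_mul_of_coprime {a b : ℕ} (hab : a.Coprime b) {g : G}
    (ha : g ∈ (powMonoidHom a : G →* G).range) (hb : g ∈ (powMonoidHom b : G →* G).range) :
    g ∈ (powMonoidHom (a * b) : G →* G).range := by
  obtain ⟨x, hx⟩ := ha
  obtain ⟨y, hy⟩ := hb
  rw [powMonoidHom_apply] at hx hy
  -- `u a + v b = 1`
  have hgcd := Nat.gcd_eq_gcd_ab a b
  rw [hab.gcd_eq_one] at hgcd
  set u : ℤ := a.gcdA b
  set v : ℤ := a.gcdB b
  refine ⟨y ^ u * x ^ v, ?_⟩
  rw [powMonoidHom_apply]
  have h1 : g = g ^ ((a : ℤ) * u + (b : ℤ) * v) := by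
    rw [← hgcd]
    simp
  calc (y ^ u * x ^ v) ^ (a * b) = (y ^ b) ^ ((a : ℤ) * u) * (x ^ a) ^ ((b : ℤ) * v) := by
        rw [mul_pow, ← zpow_natCast (y ^ u), ← zpow_natCast (x ^ v), ← zpow_mul, ← zpow_mul,
          ← zpow_natCast y b, ← zpow_natCast x a, ← zpow_mul, ← zpow_mul]
        congr 2 <;> push_cast <;> ring
    _ = g ^ ((a : ℤ) * u) * g ^ ((b : ℤ) * v) := by rw [hx, hy]
    _ = g := by rw [← zpow_add, ← h1]

theorem mem_range_pow_of_dvd {a b : ℕ} (hab : a ∣ b) {g : G}
    (hb : g ∈ (powMonoidHom b : G →* G).range) : g ∈ (powMonoidHom a : G →* G).range := by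
  obtain ⟨c, rfl⟩ := hab
  obtain ⟨y, hy⟩ := hb
  rw [powMonoidHom_apply] at hy
  exact ⟨y ^ c, by rw [powMonoidHom_apply, ← pow_mul, mul_comm, hy]⟩

/-- being a `∏ r`-th power over a set `J` of primes is being an `r`-th power for all `r ∈ J`. -/
theorem mem_range_pow_prod_iff (J : Finset ℕ) (hJ : ∀ r ∈ J, r.Prime) (g : G) :
    g ∈ (powMonoidHom (∏ r ∈ J, r) : G →* G).range ↔
      ∀ r ∈ J, g ∈ (powMonoidHom r : G →* G).range := by
  classical
  constructor
  · intro h r hr
    exact mem_range_pow_of_dvd (Finset.dvd_prod_of_mem _ hr) h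
  · induction J using Finset.induction_on with
    | empty =>
      intro _
      refine ⟨g, ?_⟩
      simp
    | insert r J hrJ ih =>
      intro h
      rw [Finset.prod_insert hrJ]
      have hr : r.Prime := hJ r (Finset.mem_insert_self r J)
      have hcop : r.Coprime (∏ x ∈ J, x) := by
        apply Nat.Coprime.prod_right
        intro x hx
        have hxp : x.Prime := hJ x (Finset.mem_insert_of_mem hx)
        rw [Nat.coprime_primes hr hxp]
        rintro rfl
        exact hrJ hx
      exact mem_range_pow_mul_of_coprime hcop (h r (Finset.mem_insert_self r J))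
        (ih (fun x hx => hJ x (Finset.mem_insert_of_mem hx))
          (fun x hx => h x (Finset.mem_insert_of_mem hx)))

/-- in a finite cyclic group, an element that is an `r`-th power for no prime divisor `r` of the
order generates the group. -/
theorem zpowers_eq_top_of_forall_prime_not_pow [IsCyclic G] [Finite G] (g : G)
    (h : ∀ r : ℕ, r.Prime → r ∣ Nat.card G → g ∉ (powMonoidHom r : G →* G).range) :
    Subgroup.zpowers g = ⊤ := by
  obtain ⟨γ, hγ⟩ := IsCyclic.exists_generator (α := G)
  obtain ⟨m, hm⟩ : ∃ m : ℕ, γ ^ m = g := by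
    have := hγ g
    rw [Subgroup.mem_zpowers_iff] at this
    obtain ⟨k, hk⟩ := this
    have hfin : IsOfFinOrder γ := isOfFinOrder_of_finite γ
    refine ⟨(k % (orderOf γ : ℤ)).toNat, ?_⟩
    rw [← zpow_natCast, Int.toNat_of_nonneg (Int.emod_nonneg _ (by
      exact_mod_cast (orderOf_pos γ).ne')), zpow_mod_orderOf, hk]
  have hord : orderOf γ = Nat.card G := orderOf_eq_card_of_forall_mem_zpowers hγ
  -- `gcd (card G) m = 1`
  have hcop : (Nat.card G).Coprime m := by
    by_contra hne
    obtain ⟨r, hr, hrd⟩ := Nat.exists_prime_and_dvd hne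
    have hrn : r ∣ Nat.card G := hrd.trans (Nat.gcd_dvd_left _ _)
    have hrm : r ∣ m := hrd.trans (Nat.gcd_dvd_right _ _)
    obtain ⟨c, rfl⟩ := hrm
    apply h r hr hrn
    refine ⟨γ ^ c, ?_⟩
    rw [powMonoidHom_apply, ← pow_mul, mul_comm, hm]
  have hgen : orderOf (γ ^ m) = Nat.card G := by
    rw [Nat.Coprime.orderOf_pow (by rwa [hord]), hord]
  rw [← hm]
  apply Subgroup.eq_top_of_card_eq
  rw [Nat.card_zpowers, hgen]

end Fermat.Agent.S31lib
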