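/-
S31 long shot (helper8), brick (1b): the weak Chebotarev theorem for a cyclic extension `N/K` of
number fields: outside any finite set containing the ramified primes there is a prime `q` of `K`
of absolute degree one whose Frobenius GENERATES `Gal(N/K)`.

Only the two-sided estimate `∑_{q splits completely in E} N q ^ (-s) = (1/[E:K]) log (1/(s-1)) + O(1)`
for the subfields `E` of `N/K` is used (upper bound `X.sum_splitsIn_le`, lower bound
`ExtVan.SecondIneq.exists_bound_degOneBelow`), plus inclusion-exclusion over the prime divisors of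
`[N:K]`.
-/
import Fermat.Agent.S31lib.CyclicGen
import Fermat.Agent.S29lib.X.Cover
import Fermat.Agent.ExtVan.ArtinFunct
import Fermat.Agent.ExtVan.DegOneInert
import Fermat.Agent.ExtVan.SecondIneq.NormPrimes
import Fermat.Agent.ExtVan.SecondIneq.ZetaOne

set_option autoImplicit false
set_option linter.style.haveILetI false
set_option linter.unusedSectionVars false

open NumberField IsDedekindDomain Ideal

noncomputable section

namespace Fermat.Agent.S31lib

open Fermat.Agent.ExtVan Fermat.Agent.ExtVan.SecondIneq Fermat.Agent.ExtVan.DegOne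
  Fermat.Agent.S29lib.X
open scoped IsMulCommutative

variable (K N : Type*) [Field K] [NumberField K] [Field N] [NumberField N] [Algebra K N]
  [IsAbelianGalois K N]

/-- the subgroup of `d`-th powers of `Gal(N/K)`. -/
def powSub (d : ℕ) : Subgroup Gal(N/K) := (powMonoidHom d : Gal(N/K) →* Gal(N/K)).range

/-- the fixed field of the `d`-th powers. -/
def powField (d : ℕ) : IntermediateField K N := IntermediateField.fixedField (powSub K N d)

instance powSub_normal (d : ℕ) : (powSub K N d).Normal := Subgroup.normal_of_isMulCommutative _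

instance isGalois_powField (d : ℕ) : IsGalois K (powField K N d) := by
  unfold powField
  infer_instance

theorem fixingSubgroup_powField (d : ℕ) : (powField K N d).fixingSubgroup = powSub K N d :=
  IntermediateField.fixingSubgroup_fixedField _

theorem finrank_powField [IsCyclic Gal(N/K)] {d : ℕ} (hd : d ∣ Module.finrank K N) :
    Module.finrank K (powField K N d) = d := by
  have hcard : Nat.card Gal(N/K) = Module.finrank K N := IsGalois.card_aut_eq_finrank K N
  have hidx : (powSub K N d).index = d := by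
    unfold powSub
    rw [IsCyclic.index_powMonoidHom_range, hcard]
    exact Nat.gcd_eq_right hd
  have h1 : Module.finrank (powField K N d) N = Nat.card (powSub K N d) :=
    IntermediateField.finrank_fixedField_eq_card _
  have h2 := Module.finrank_mul_finrank K (powField K N d) N
  have h3 := (powSub K N d).card_mul_index
  rw [hidx, hcard, ← h2, ← h1] at h3
  have hpos : 0 < Module.finrank (powField K N d) N := Module.finrank_pos
  have h4 : Module.finrank (powField K N d) N * d =
      Module.finrank (powField K N d) N * Module.finrank K (powField K N d) := by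
    rw [h3, mul_comm]
  exact (Nat.eq_of_mul_eq_mul_left hpos h4).symm

variable {K N}

/-- a prime above `q` with the same absolute norm has inertia degree one. -/
theorem inertiaDeg_eq_one_of_absNorm_eq {E : Type*} [Field E] [NumberField E] [Algebra K E]
    {q : HeightOneSpectrum (𝓞 K)} (Q : Ideal (𝓞 E)) [Q.IsPrime] [Q.LiesOver q.asIdeal]
    (h : absNorm Q = absNorm q.asIdeal) : Q.inertiaDeg (𝓞 K) = 1 := by
  have h1 := Ideal.absNorm_pow_inertiaDeg q.asIdeal Q
  have h2 : 2 ≤ absNorm q.asIdeal := two_le_absNorm K q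
  rw [h] at h1
  have h3 : absNorm q.asIdeal ^ Q.inertiaDeg (𝓞 K) = absNorm q.asIdeal ^ 1 := by
    rw [h1, pow_one]
  exact Nat.pow_right_injective h2 h3

/-- **Dictionary**: at a prime `q` unramified in `N`, the Frobenius is a `d`-th power iff
`q` splits completely in the fixed field of the `d`-th powers. -/
theorem frob_mem_powSub_iff (d : ℕ) {q : HeightOneSpectrum (𝓞 K)}
    (hq : ∀ Q : Ideal (𝓞 N), Q.IsPrime → Q.LiesOver q.asIdeal → Q.ramificationIdx (𝓞 K) = 1) :
    frob K N q ∈ powSub K N d ↔ SplitsIn (powField K N d) q := by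
  have hun : UnramAt K N q := unramAt_of_ramificationIdx hq
  have hunE : UnramAt K (powField K N d) q := hun.tower_bot
  rw [← fixingSubgroup_powField]
  constructor
  · intro h
    obtain ⟨⟨Q', hQ', hQ'q⟩⟩ := Ideal.nonempty_primesOver (S := 𝓞 (powField K N d)) q.asIdeal
    have hf := (frob_mem_fixingSubgroup_iff (powField K N d) hun Q').mp h
    refine ⟨fun Q hQ hQq => hunE.ramificationIdx_eq_one Q, ?_⟩
    refine ⟨⟨Q', hQ', Ideal.ne_bot_of_liesOver_of_ne_bot q.ne_bot Q'⟩, hQ'q, ?_⟩
    have h1 := Ideal.absNorm_pow_inertiaDeg q.asIdeal Q'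
    rw [hf, pow_one] at h1
    exact h1.symm
  · rintro ⟨-, Q', hQ'q, hN⟩
    haveI := Q'.isPrime
    haveI := hQ'q
    exact (frob_mem_fixingSubgroup_iff (powField K N d) hun Q'.asIdeal).mpr
      (inertiaDeg_eq_one_of_absNorm_eq Q'.asIdeal hN)

/-! ### masses -/

variable (K N) in
/-- the primes outside `S`, of absolute degree one, whose Frobenius is a `d`-th power. -/
def splitSet (S : Finset (HeightOneSpectrum (𝓞 K))) (d : ℕ) : Set (HeightOneSpectrum (𝓞 K)) :=
  {q | q ∉ S ∧ (absNorm q.asIdeal).Prime ∧ frob K N q ∈ powSub K N d}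

/-- the weight `N q ^ (-s)`. -/
abbrev wt (s : ℝ) (q : HeightOneSpectrum (𝓞 K)) : ℝ := primeNorm q ^ (-s)

theorem wt_nonneg (s : ℝ) (q : HeightOneSpectrum (𝓞 K)) : 0 ≤ wt s q :=
  primeNorm_rpow_nonneg q _

theorem summable_wt {s : ℝ} (hs : 1 < s) : Summable (wt (K := K) s) :=
  summable_primeNorm_rpow K hs

theorem summable_indicator_wt (X : Set (HeightOneSpectrum (𝓞 K))) {s : ℝ} (hs : 1 < s) :
    Summable (X.indicator (wt (K := K) s)) :=
  (summable_wt hs).indicator _

/-- mass of a set of primes bounded through its finite subsets. -/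
theorem tsum_indicator_le (X : Set (HeightOneSpectrum (𝓞 K))) {s : ℝ} (hs : 1 < s) (c : ℝ)
    (h : ∀ A : Finset (HeightOneSpectrum (𝓞 K)), (∀ q ∈ A, q ∈ X) → ∑ q ∈ A, wt s q ≤ c) :
    ∑' q, X.indicator (wt s) q ≤ c := by
  classical
  refine (summable_indicator_wt X hs).tsum_le_of_sum_le fun A => ?_
  rw [Finset.sum_indicator_eq_sum_filter]
  exact h _ fun q hq => (Finset.mem_filter.mp hq).2

theorem exists_upper_bound_splitSet [IsCyclic Gal(N/K)] (S : Finset (HeightOneSpectrum (𝓞 K)))
    (hS : ∀ q ∉ S, ∀ Q : Ideal (𝓞 N), Q.IsPrime → Q.LiesOver q.asIdeal →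
      Q.ramificationIdx (𝓞 K) = 1) {d : ℕ} (hd : d ∣ Module.finrank K N) :
    ∃ B : ℝ, ∀ s ∈ Set.Ioc (1 : ℝ) 2,
      ∑' q, (splitSet K N S d).indicator (wt s) q ≤ (Real.log (1 / (s - 1)) + B) / d := by
  obtain ⟨B, hB⟩ := sum_splitsIn_le (F := K) (powField K N d)
  refine ⟨B, fun s hs => tsum_indicator_le _ hs.1 _ fun A hA => ?_⟩
  have := hB s hs A fun q hq => (frob_mem_powSub_iff d (hS q (hA q hq).1)).mp (hA q hq).2.2
  rwa [finrank_powField K N hd] at this

/-- a prime that is the relative norm of a prime of `E` has a prime above it with the same norm. -/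
theorem exists_liesOver_of_mem_degOneBelow {E : Type*} [Field E] [NumberField E] [Algebra K E]
    {q : HeightOneSpectrum (𝓞 K)} (hq : q ∈ degOneBelow K E) :
    ∃ P : HeightOneSpectrum (𝓞 E), P.asIdeal.LiesOver q.asIdeal ∧
      absNorm P.asIdeal = absNorm q.asIdeal := by
  obtain ⟨P, hP⟩ := hq
  refine ⟨P, ⟨?_⟩, ?_⟩
  · have hle : q.asIdeal ≤ P.asIdeal.under (𝓞 K) := by
      rw [← hP]
      exact Ideal.relNorm_le_comap (R := 𝓞 K) P.asIdeal
    haveI : (P.asIdeal.under (𝓞 K)).IsPrime := inferInstance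
    exact q.isMaximal.eq_of_le (Ideal.IsPrime.ne_top inferInstance) hle
  · rw [← hP, Ideal.absNorm_relNorm]

theorem exists_lower_bound_splitSet [IsCyclic Gal(N/K)] (S : Finset (HeightOneSpectrum (𝓞 K)))
    (hS : ∀ q ∉ S, ∀ Q : Ideal (𝓞 N), Q.IsPrime → Q.LiesOver q.asIdeal →
      Q.ramificationIdx (𝓞 K) = 1) {d : ℕ} (hd : d ∣ Module.finrank K N) :
    ∃ B : ℝ, ∀ s ∈ Set.Ioc (1 : ℝ) 2,
      Real.log (1 / (s - 1)) / d - B ≤ ∑' q, (splitSet K N S d).indicator (wt s) q := by
  classical
  obtain ⟨B1, hB1⟩ := exists_bound_degOneBelow K (powField K N d)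
    (LS.exists_lower_bound_primeSum (powField K N d))
  set C₀ : ℝ := (Module.finrank ℚ K : ℝ) * ∑' m : ℕ, 1 / (m : ℝ) ^ 2 with hC₀
  refine ⟨B1 + S.card + C₀, fun s hs => ?_⟩
  have h1 := hB1 s hs
  rw [finrank_powField K N hd] at h1
  rw [tsum_subtype (degOneBelow K (powField K N d)) fun q => primeNorm q ^ (-s)] at h1
  -- pointwise bound
  set X1 : Set (HeightOneSpectrum (𝓞 K)) := splitSet K N S d with hX1
  set X2 : Set (HeightOneSpectrum (𝓞 K)) := (S : Set (HeightOneSpectrum (𝓞 K))) with hX2
  set X3 : Set (HeightOneSpectrum (𝓞 K)) := {q | ¬ (absNorm q.asIdeal).Prime} with hX3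
  have hpt : ∀ q, (degOneBelow K (powField K N d)).indicator (wt s) q ≤
      X1.indicator (wt s) q + X2.indicator (wt s) q + X3.indicator (wt s) q := by
    intro q
    have n1 := Set.indicator_nonneg (s := X1) (f := wt s) (fun q _ => wt_nonneg s q) q
    have n2 := Set.indicator_nonneg (s := X2) (f := wt s) (fun q _ => wt_nonneg s q) q
    have n3 := Set.indicator_nonneg (s := X3) (f := wt s) (fun q _ => wt_nonneg s q) q
    by_cases hq : q ∈ degOneBelow K (powField K N d)
    · rw [Set.indicator_of_mem hq]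
      by_cases hqS : q ∈ S
      · rw [Set.indicator_of_mem (show q ∈ X2 from hqS)]
        linarith
      · by_cases hqp : (absNorm q.asIdeal).Prime
        · have hmem : q ∈ X1 := by
            refine ⟨hqS, hqp, ?_⟩
            obtain ⟨P, hPq, hN⟩ := exists_liesOver_of_mem_degOneBelow hq
            rw [frob_mem_powSub_iff d (hS q hqS)]
            obtain ⟨⟨Q', hQ', hQ'q⟩⟩ :=
              Ideal.nonempty_primesOver (S := 𝓞 (powField K N d)) q.asIdeal
            have hun : UnramAt K N q := unramAt_of_ramificationIdx (hS q hqS)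
            have hunE : UnramAt K (powField K N d) q := hun.tower_bot
            exact ⟨fun Q hQ hQq => hunE.ramificationIdx_eq_one Q, P, hPq, hN⟩
          rw [Set.indicator_of_mem hmem]
          linarith
        · rw [Set.indicator_of_mem (show q ∈ X3 from hqp)]
          linarith
    · rw [Set.indicator_of_notMem hq]
      linarith
  have hs1 := summable_indicator_wt X1 hs.1
  have hs2 := summable_indicator_wt X2 hs.1
  have hs3 := summable_indicator_wt X3 hs.1
  have hle := (summable_indicator_wt (degOneBelow K (powField K N d)) hs.1).tsum_le_tsum hpt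
    ((hs1.add hs2).add hs3)
  rw [(hs1.add hs2).tsum_add hs3, hs1.tsum_add hs2] at hle
  have h2 : ∑' q, X2.indicator (wt s) q ≤ S.card := by
    refine tsum_indicator_le X2 hs.1 _ fun A hA => ?_
    calc ∑ q ∈ A, wt s q ≤ ∑ q ∈ A, (1 : ℝ) :=
          Finset.sum_le_sum fun q _ => rpow_neg_le_one q (by linarith [hs.1])
      _ = (A.card : ℝ) := by simp
      _ ≤ S.card := by
          have : A ⊆ S := fun q hq => hA q hq
          exact_mod_cast Finset.card_le_card this
  have h3 : ∑' q, X3.indicator (wt s) q ≤ C₀ :=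
    tsum_indicator_le X3 hs.1 _ fun A hA => sum_not_prime_le A hA hs.1.le
  have h4 : (1 / (d : ℝ)) * Real.log (1 / (s - 1)) = Real.log (1 / (s - 1)) / d := by ring
  rw [h4] at h1
  have h5 : ∑' q, (degOneBelow K (powField K N d)).indicator (wt s) q =
      ∑' q, (degOneBelow K (powField K N d)).indicator (fun q => primeNorm q ^ (-s)) q := rfl
  linarith

/-! ### inclusion-exclusion -/

variable (K N) in
/-- the primes outside `S`, of absolute degree one, whose Frobenius is an `r`-th power for no prime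
divisor `r` of `[N:K]`. -/
def goodSet (S : Finset (HeightOneSpectrum (𝓞 K))) : Set (HeightOneSpectrum (𝓞 K)) :=
  {q | q ∉ S ∧ (absNorm q.asIdeal).Prime ∧
    ∀ r ∈ (Module.finrank K N).primeFactors, frob K N q ∉ powSub K N r}

theorem prod_one_sub_eq_sum {ι : Type*} [DecidableEq ι] (P : Finset ι) (x : ι → ℝ) :
    ∏ r ∈ P, (1 - x r) = ∑ J ∈ P.powerset, (-1) ^ J.card * ∏ r ∈ J, x r := by
  have h := Finset.prod_add (fun r => - x r) (fun _ => (1 : ℝ)) P
  simp only [Finset.prod_const_one, mul_one, Finset.prod_neg] at h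
  rw [← h]
  exact Finset.prod_congr rfl fun r _ => by ring

theorem indicator_goodSet_eq (S : Finset (HeightOneSpectrum (𝓞 K))) (s : ℝ)
    (q : HeightOneSpectrum (𝓞 K)) :
    (goodSet K N S).indicator (wt s) q =
      ∑ J ∈ (Module.finrank K N).primeFactors.powerset,
        (-1) ^ J.card * (splitSet K N S (∏ r ∈ J, r)).indicator (wt s) q := by
  classical
  set P := (Module.finrank K N).primeFactors with hP
  by_cases h0 : q ∉ S ∧ (absNorm q.asIdeal).Prime
  · set x : ℕ → ℝ := fun r => if frob K N q ∈ powSub K N r then 1 else 0 with hx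
    have hL : (goodSet K N S).indicator (wt s) q = wt s q * ∏ r ∈ P, (1 - x r) := by
      by_cases hg : q ∈ goodSet K N S
      · rw [Set.indicator_of_mem hg]
        have : ∀ r ∈ P, (1 - x r) = 1 := by
          intro r hr
          simp only [hx]
          rw [if_neg (hg.2.2 r hr), sub_zero]
        rw [Finset.prod_congr rfl this, Finset.prod_const_one, mul_one]
      · rw [Set.indicator_of_notMem hg]
        have : ∃ r ∈ P, frob K N q ∈ powSub K N r := by
          by_contra hcon
          push Not at hcon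
          exact hg ⟨h0.1, h0.2, hcon⟩
        obtain ⟨r, hr, hmem⟩ := this
        have hz : (1 - x r) = 0 := by
          simp only [hx]
          rw [if_pos hmem, sub_self]
        rw [Finset.prod_eq_zero hr hz, mul_zero]
    have hR : ∀ J ∈ P.powerset, (splitSet K N S (∏ r ∈ J, r)).indicator (wt s) q =
        wt s q * ∏ r ∈ J, x r := by
      intro J hJ
      have hJP : J ⊆ P := Finset.mem_powerset.mp hJ
      have hprime : ∀ r ∈ J, r.Prime := fun r hr => Nat.prime_of_mem_primeFactors (hJP hr)
      have hiff : q ∈ splitSet K N S (∏ r ∈ J, r) ↔ ∀ r ∈ J, frob K N q ∈ powSub K N r := by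
        constructor
        · intro h
          exact (mem_range_pow_prod_iff J hprime _).mp h.2.2
        · intro h
          exact ⟨h0.1, h0.2, (mem_range_pow_prod_iff J hprime _).mpr h⟩
      have hprod : ∏ r ∈ J, x r = if ∀ r ∈ J, frob K N q ∈ powSub K N r then 1 else 0 := by
        simp only [hx]
        rw [Finset.prod_ite_zero, Finset.prod_const_one]
      rw [hprod]
      by_cases hall : ∀ r ∈ J, frob K N q ∈ powSub K N r
      · rw [if_pos hall, mul_one, Set.indicator_of_mem (hiff.mpr hall)]
      · rw [if_neg hall, mul_zero, Set.indicator_of_notMem (fun h => hall (hiff.mp h))]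
    rw [hL, prod_one_sub_eq_sum, Finset.mul_sum]
    refine Finset.sum_congr rfl fun J hJ => ?_
    rw [hR J hJ]
    ring
  · have hg : q ∉ goodSet K N S := fun h => h0 ⟨h.1, h.2.1⟩
    rw [Set.indicator_of_notMem hg]
    symm
    refine Finset.sum_eq_zero fun J _ => ?_
    have : q ∉ splitSet K N S (∏ r ∈ J, r) := fun h => h0 ⟨h.1, h.2.1⟩
    rw [Set.indicator_of_notMem this, mul_zero]

theorem tsum_indicator_goodSet_eq (S : Finset (HeightOneSpectrum (𝓞 K))) {s : ℝ} (hs : 1 < s) :
    ∑' q, (goodSet K N S).indicator (wt s) q =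
      ∑ J ∈ (Module.finrank K N).primeFactors.powerset,
        (-1) ^ J.card * ∑' q, (splitSet K N S (∏ r ∈ J, r)).indicator (wt s) q := by
  rw [tsum_congr (indicator_goodSet_eq S s)]
  rw [Summable.tsum_finsetSum fun J _ => (summable_indicator_wt _ hs).mul_left _]
  exact Finset.sum_congr rfl fun J _ => tsum_mul_left

/-- **Weak Chebotarev for a cyclic extension of number fields.** -/
theorem exists_degOne_prime_frob_generates [IsCyclic Gal(N/K)]
    (S : Finset (HeightOneSpectrum (𝓞 K)))
    (hS : ∀ q ∉ S, ∀ Q : Ideal (𝓞 N), Q.IsPrime → Q.LiesOver q.asIdeal →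
      Q.ramificationIdx (𝓞 K) = 1) :
    ∃ q ∉ S, (absNorm q.asIdeal).Prime ∧ Subgroup.zpowers (frob K N q) = ⊤ := by
  classical
  set P := (Module.finrank K N).primeFactors with hP
  set dd : Finset ℕ → ℕ := fun J => ∏ r ∈ J, r with hdd
  have hdvd : ∀ J : Finset ℕ, J ⊆ P → dd J ∣ Module.finrank K N := fun J hJ =>
    (Finset.prod_dvd_prod_of_subset J P id hJ).trans (Nat.prod_primeFactors_dvd _)
  have hdpos : ∀ J : Finset ℕ, J ⊆ P → (1 : ℝ) ≤ (dd J : ℝ) := by
    intro J hJ
    have : 0 < dd J :=
      Finset.prod_pos fun r hr => (Nat.prime_of_mem_primeFactors (hJ hr)).pos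
    exact_mod_cast this
  have hU : ∀ J : Finset ℕ, J ⊆ P → ∃ B : ℝ, ∀ s ∈ Set.Ioc (1 : ℝ) 2,
      ∑' q, (splitSet K N S (dd J)).indicator (wt s) q ≤ (Real.log (1 / (s - 1)) + B) / dd J :=
    fun J hJ => exists_upper_bound_splitSet S hS (hdvd J hJ)
  have hL : ∀ J : Finset ℕ, J ⊆ P → ∃ B : ℝ, ∀ s ∈ Set.Ioc (1 : ℝ) 2,
      Real.log (1 / (s - 1)) / dd J - B ≤ ∑' q, (splitSet K N S (dd J)).indicator (wt s) q :=
    fun J hJ => exists_lower_bound_splitSet S hS (hdvd J hJ)
  choose! BU hBU using hU
  choose! BL hBL using hL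
  set E : ℝ := ∑ J ∈ P.powerset, (|BU J| + |BL J|) with hE
  set c : ℝ := ∏ r ∈ P, (1 - 1 / (r : ℝ)) with hc
  have hcpos : 0 < c := by
    refine Finset.prod_pos fun r hr => ?_
    have h2 : (2 : ℝ) ≤ (r : ℝ) := by exact_mod_cast (Nat.prime_of_mem_primeFactors hr).two_le
    have : 1 / (r : ℝ) ≤ 1 / 2 := one_div_le_one_div_of_le (by norm_num) h2
    linarith
  have hcsum : c = ∑ J ∈ P.powerset, (-1) ^ J.card * (1 / (dd J : ℝ)) := by
    rw [hc, prod_one_sub_eq_sum]
    refine Finset.sum_congr rfl fun J _ => ?_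
    rw [hdd]
    simp only [Nat.cast_prod, one_div, Finset.prod_inv_distrib]
  -- the key lower bound
  have hkey : ∀ s ∈ Set.Ioc (1 : ℝ) 2,
      Real.log (1 / (s - 1)) * c - E ≤ ∑' q, (goodSet K N S).indicator (wt s) q := by
    intro s hs
    rw [tsum_indicator_goodSet_eq S hs.1, hcsum, Finset.mul_sum, hE, ← Finset.sum_sub_distrib]
    refine Finset.sum_le_sum fun J hJ => ?_
    have hJP : J ⊆ P := Finset.mem_powerset.mp hJ
    have hu := hBU J hJP s hs
    have hl := hBL J hJP s hs
    have hd1 := hdpos J hJP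
    have hdpos' : (0 : ℝ) < (dd J : ℝ) := by linarith
    set m := ∑' q, (splitSet K N S (dd J)).indicator (wt s) q with hm
    set ℒ := Real.log (1 / (s - 1)) with hℒ
    have hBUd : BU J / (dd J : ℝ) ≤ |BU J| := by
      rw [div_le_iff₀ hdpos']
      have := le_abs_self (BU J)
      have h0 := abs_nonneg (BU J)
      nlinarith
    have hu' : m ≤ ℒ / dd J + |BU J| := by
      have : (ℒ + BU J) / (dd J : ℝ) = ℒ / dd J + BU J / dd J := by ring
      rw [this] at hu
      linarith
    have hl' : ℒ / dd J - |BL J| ≤ m := by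
      have := le_abs_self (BL J)
      linarith
    have habsU := abs_nonneg (BU J)
    have habsL := abs_nonneg (BL J)
    rcases Nat.even_or_odd J.card with hev | hodd
    · rw [hev.neg_one_pow, one_mul, one_mul]
      have : ℒ * (1 / (dd J : ℝ)) = ℒ / dd J := by ring
      rw [this]
      linarith
    · rw [hodd.neg_one_pow]
      have : ℒ * (-1 * (1 / (dd J : ℝ))) = -(ℒ / dd J) := by ring
      rw [this]
      linarith
  -- choose `s`
  set x₀ : ℝ := |E| / c + 1 with hx₀
  have hx₀pos : 0 < x₀ := by positivity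
  set s : ℝ := 1 + Real.exp (-x₀) with hs
  have hs_mem : s ∈ Set.Ioc (1 : ℝ) 2 := by
    refine ⟨by rw [hs]; linarith [Real.exp_pos (-x₀)], ?_⟩
    have : Real.exp (-x₀) ≤ 1 := Real.exp_le_one_iff.mpr (by linarith)
    rw [hs]; linarith
  have hlog : Real.log (1 / (s - 1)) = x₀ := by
    rw [hs, add_sub_cancel_left, one_div, ← Real.exp_neg, neg_neg, Real.log_exp]
  have hpos : 0 < ∑' q, (goodSet K N S).indicator (wt s) q := by
    refine lt_of_lt_of_le ?_ (hkey s hs_mem)
    rw [hlog, hx₀]
    have h1 : (|E| / c + 1) * c = |E| + c := by field_simp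
    rw [h1]
    have := le_abs_self E
    linarith
  -- so the good set is nonempty
  have hne : (goodSet K N S).Nonempty := by
    by_contra hempty
    rw [Set.not_nonempty_iff_eq_empty] at hempty
    rw [hempty] at hpos
    simp at hpos
  obtain ⟨q, hqS, hqp, hq⟩ := hne
  refine ⟨q, hqS, hqp, ?_⟩
  apply zpowers_eq_top_of_forall_prime_not_pow
  intro r hr hrd
  refine hq r ?_
  rw [Nat.mem_primeFactors]
  have hcard : Nat.card Gal(N/K) = Module.finrank K N := IsGalois.card_aut_eq_finrank K N
  rw [hcard] at hrd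
  exact ⟨hr, hrd, (Module.finrank_pos).ne'⟩

end Fermat.Agent.S31lib
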