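/-
S31 long shot (helper8), brick (1c): the weak Chebotarev theorem in the prelude's language.
For a finite Galois subfield `M ≤ ℚ̄`, an element `g` of `G_ℚ` and a finite set `S₀` of primes there
are a prime `ℓ ∉ S₀`, a valuation subring `A` of `ℚ̄` over `ℓ` and a Frobenius element `φ` at `A`
such that `g` and a power of `φ` agree on `M`.
-/
import Fermat.Agent.S31lib.WeakChebNF
import Fermat.Agent.S29lib.X.FrobSplit
import Fermat.Agent.Helper5.FrobExists

set_option autoImplicit false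
set_option linter.style.haveILetI false
set_option linter.unusedSectionVars false

open NumberField IsDedekindDomain Ideal

noncomputable section

namespace Fermat.Agent.S31lib

open Fermat.Agent.ExtVan Fermat.Agent.ExtVan.DegOne Fermat.Agent.S29lib.X
  Fermat.Agent.ExtVan.InertiaLift

/-! ### finiteness of the primes over a finite set of rational primes -/

section Finite

variable {F : Type*} [Field F] [NumberField F]

theorem finite_setOf_primeBelow_eq (m : ℕ) :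
    {q : HeightOneSpectrum (𝓞 F) | DegOne.primeBelow q = m}.Finite := by
  classical
  by_contra hinf
  rw [Set.not_finite] at hinf
  obtain ⟨t, ht, hcard⟩ := hinf.exists_subset_card_eq (Module.finrank ℚ F + 1)
  have h1 := DegOne.card_filter_primeBelow_le t m
  have h2 : t.filter (fun q => DegOne.primeBelow q = m) = t := by
    apply Finset.filter_true_of_mem
    intro q hq
    exact ht hq
  rw [h2, hcard] at h1
  omega

theorem finite_setOf_primeBelow_mem (T : Finset ℕ) :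
    {q : HeightOneSpectrum (𝓞 F) | DegOne.primeBelow q ∈ T}.Finite := by
  have : {q : HeightOneSpectrum (𝓞 F) | DegOne.primeBelow q ∈ T} =
      ⋃ m ∈ T, {q : HeightOneSpectrum (𝓞 F) | DegOne.primeBelow q = m} := by
    ext q
    simp
  rw [this]
  exact Set.Finite.biUnion T.finite_toSet fun m _ => finite_setOf_primeBelow_eq m

end Finite

/-! ### unramified primes -/

section Unram

variable {E : Type*} [Field E] [NumberField E]

/-- primes of `𝓞 E` over a rational prime not dividing the discriminant are unramified over `ℤ`. -/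
theorem isUnramifiedAt_int_of_not_dvd_discr {ℓ : ℕ} (hℓ : ℓ.Prime)
    (hd : ¬ (ℓ : ℤ) ∣ NumberField.discr E) (Q : Ideal (𝓞 E)) [Q.IsPrime] (hQ : (ℓ : 𝓞 E) ∈ Q) :
    Algebra.IsUnramifiedAt ℤ Q := by
  have h := (NumberField.not_dvd_discr_iff_forall_mem E (𝓞 E)
    (Nat.prime_iff_prime_int.mp hℓ)).mp hd Q inferInstance
  apply h
  simpa using hQ

theorem ramificationIdx_eq_one_of_not_dvd_discr {F : Type*} [Field F] [NumberField F]
    [Algebra F E] {ℓ : ℕ} (hℓ : ℓ.Prime)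
    (hd : ¬ (ℓ : ℤ) ∣ NumberField.discr E) (Q : Ideal (𝓞 E)) [Q.IsPrime] (hQ : (ℓ : 𝓞 E) ∈ Q) :
    Q.ramificationIdx (𝓞 F) = 1 := by
  haveI := isUnramifiedAt_int_of_not_dvd_discr hℓ hd Q hQ
  haveI : Algebra.IsUnramifiedAt (𝓞 F) Q :=
    Algebra.FormallyUnramified.of_restrictScalars ℤ (𝓞 F) (Localization.AtPrime Q)
  exact Ideal.ramificationIdx_eq_one_of_isUnramifiedAt (R := 𝓞 F)

end Unram

/-! ### primes of `ℤ̄` over a prime of `𝓞 M` -/

section LyingOver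

open Fermat.Agent.Helper5

variable (M : IntermediateField ℚ Qb) [FiniteDimensional ℚ M]

/-- the inclusion `𝓞 M → ℤ̄`. -/
def toZbar : 𝓞 M →+* Zbar :=
  ((algebraMap M Qb).comp (algebraMap (𝓞 M) M)).codRestrict Zbar.toSubring fun x => by
    have h1 : IsIntegral ℤ ((x : 𝓞 M) : M) := x.2
    exact h1.map (IsScalarTower.toAlgHom ℤ M Qb)

@[simp] theorem coe_toZbar (x : 𝓞 M) : ((toZbar M x : Zbar) : Qb) = (((x : 𝓞 M) : M) : Qb) := rfl

theorem toZbar_injective : Function.Injective (toZbar M) := by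
  intro x y h
  have h1 := congrArg (fun z : Zbar => (z : Qb)) h
  simp only [coe_toZbar] at h1
  exact RingOfIntegers.ext (Subtype.ext h1)

/-- a maximal ideal of `ℤ̄` over a given nonzero prime of `𝓞 M` containing `ℓ`. -/
theorem exists_maximal_over (Q : Ideal (𝓞 M)) [Q.IsPrime] (hQ0 : Q ≠ ⊥) {ℓ : ℕ} (hℓ : ℓ.Prime)
    (hℓQ : (ℓ : 𝓞 M) ∈ Q) :
    ∃ 𝔓 : Ideal Zbar, 𝔓.IsMaximal ∧ 𝔓.LiesOver (Ideal.span {(ℓ : ℤ)}) ∧
      𝔓.comap (toZbar M) = Q := by
  haveI : Q.IsMaximal := Ring.DimensionLEOne.maximalOfPrime hQ0 inferInstance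
  letI : Algebra (𝓞 M) Zbar := (toZbar M).toAlgebra
  haveI : Algebra.IsIntegral (𝓞 M) Zbar := by
    refine ⟨fun b => ?_⟩
    have hb : IsIntegral ℤ b := Algebra.IsIntegral.isIntegral b
    exact hb.tower_top
  have halg : algebraMap (𝓞 M) Zbar = toZbar M := rfl
  obtain ⟨𝔓, h𝔓, hcomap⟩ := Ideal.exists_ideal_over_maximal_of_isIntegral (S := Zbar) Q (by
    rw [halg, (RingHom.injective_iff_ker_eq_bot _).mp (toZbar_injective M)]
    exact bot_le)
  rw [halg] at hcomap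
  refine ⟨𝔓, h𝔓, ⟨?_⟩, hcomap⟩
  have hmax : (Ideal.span {(ℓ : ℤ)}).IsMaximal :=
    (Ideal.span_singleton_prime (by exact_mod_cast hℓ.ne_zero)).mpr
      (Nat.prime_iff_prime_int.mp hℓ) |>.isMaximal (by simpa using hℓ.ne_zero)
  refine hmax.eq_of_le (Ideal.IsPrime.ne_top inferInstance) ?_
  rw [Ideal.span_singleton_le_iff_mem, Ideal.under, Ideal.mem_comap]
  have h1 : (ℓ : 𝓞 M) ∈ 𝔓.comap (toZbar M) := by rw [hcomap]; exact hℓQ
  rw [Ideal.mem_comap] at h1
  simpa using h1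

end LyingOver

/-! ### the main theorem -/

section Main

open Fermat.Agent.Helper5

variable (M : IntermediateField ℚ Qb) [FiniteDimensional ℚ M] [IsGalois ℚ M]

/-- an automorphism of `M` over `ℚ` is determined by its action on `𝓞 M`. -/
theorem algEquiv_ext_of_int {τ τ' : M ≃ₐ[ℚ] M} (h : ∀ x : 𝓞 M, τ (x : M) = τ' (x : M)) :
    τ = τ' := by
  refine AlgEquiv.ext fun y => ?_
  obtain ⟨a, b, -, rfl⟩ := IsFractionRing.div_surjective (A := 𝓞 M) y
  rw [map_div₀, map_div₀]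
  exact congrArg₂ (· / ·) (h a) (h b)

theorem under_int_eq_span (Q : Ideal (𝓞 M)) [Q.IsPrime] {ℓ : ℕ} (hℓ : ℓ.Prime)
    (hℓQ : (ℓ : 𝓞 M) ∈ Q) : Q.under ℤ = Ideal.span {(ℓ : ℤ)} := by
  have hmax : (Ideal.span {(ℓ : ℤ)}).IsMaximal :=
    (Ideal.span_singleton_prime (by exact_mod_cast hℓ.ne_zero)).mpr
      (Nat.prime_iff_prime_int.mp hℓ) |>.isMaximal (by simpa using hℓ.ne_zero)
  symm
  refine hmax.eq_of_le (Ideal.IsPrime.ne_top inferInstance) ?_
  rw [Ideal.span_singleton_le_iff_mem, Ideal.under, Ideal.mem_comap]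
  simpa using hℓQ

/-- **Uniqueness of Frobenius** at a prime of `𝓞 M` over a rational prime not dividing the
discriminant. -/
theorem eq_of_frobenius_congr {ℓ : ℕ} (hℓ : ℓ.Prime) (hd : ¬ (ℓ : ℤ) ∣ NumberField.discr M)
    (Q : Ideal (𝓞 M)) [Q.IsPrime] (hℓQ : (ℓ : 𝓞 M) ∈ Q) {τ τ' : M ≃ₐ[ℚ] M}
    (h : ∀ x : 𝓞 M, τ • x - x ^ ℓ ∈ Q) (h' : ∀ x : 𝓞 M, τ' • x - x ^ ℓ ∈ Q) : τ = τ' := by
  haveI := isUnramifiedAt_int_of_not_dvd_discr hℓ hd Q hℓQ
  have hcard : Nat.card (ℤ ⧸ Q.under ℤ) = ℓ := by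
    rw [under_int_eq_span M Q hℓ hℓQ, Int.card_ideal_quot]
  have H : IsArithFrobAt ℤ τ Q := by
    intro x
    rw [hcard]
    exact h x
  have H' : IsArithFrobAt ℤ τ' Q := by
    intro x
    rw [hcard]
    exact h' x
  have heq := AlgHom.IsArithFrobAt.eq_of_isUnramifiedAt H H' (by
    intro x hx
    rw [mem_nonZeroDivisors_iff_ne_zero]
    rintro rfl
    exact hx Q.zero_mem)
  apply algEquiv_ext_of_int
  intro x
  have := congrArg (fun f : 𝓞 M →ₐ[ℤ] 𝓞 M => ((f x : 𝓞 M) : M)) heq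
  exact this

/-- **Weak Chebotarev, prelude form.** -/
theorem exists_frobenius_pow_eq (g : GQ) (S₀ : Finset ℕ) :
    ∃ (ℓ : ℕ) (A : ValuationSubring Qb) (φ : GQ) (j : ℕ),
      ℓ.Prime ∧ ℓ ∉ S₀ ∧ A.LiesOverPrime ℓ ∧ A.IsFrobeniusAt φ ℓ ∧ ∀ x ∈ M, g x = (φ ^ j) x := by
  classical
  -- the cyclic subgroup generated by the restriction of `g`, and its fixed field
  set σ : M ≃ₐ[ℚ] M := AlgEquiv.restrictNormalHom M g with hσ
  set C : Subgroup (M ≃ₐ[ℚ] M) := Subgroup.zpowers σ with hC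
  set K : IntermediateField ℚ M := IntermediateField.fixedField C with hK
  haveI : IsCyclic Gal(M/K) :=
    (IntermediateField.subgroupEquivAlgEquiv C).isCyclic.mp inferInstance
  haveI : IsAbelianGalois K M := IsAbelianGalois.of_isCyclic K M
  -- the bad primes
  have hdisc : NumberField.discr M ≠ 0 := NumberField.discr_ne_zero M
  set T : Finset ℕ := S₀ ∪ (NumberField.discr M).natAbs.primeFactors with hT
  set S : Finset (HeightOneSpectrum (𝓞 K)) := (finite_setOf_primeBelow_mem (F := K) T).toFinset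
    with hS
  have hnotdvd : ∀ q : HeightOneSpectrum (𝓞 K), q ∉ S →
      ¬ ((DegOne.primeBelow q : ℕ) : ℤ) ∣ NumberField.discr M := by
    intro q hq hdvd
    apply hq
    rw [hS, Set.Finite.mem_toFinset, Set.mem_ofPred_eq, hT, Finset.mem_union]
    right
    rw [Nat.mem_primeFactors]
    refine ⟨DegOne.primeBelow_prime q, ?_, by simpa using hdisc⟩
    exact Int.natCast_dvd.mp hdvd
  have hmemQ : ∀ (q : HeightOneSpectrum (𝓞 K)) (Q : Ideal (𝓞 M)), Q.LiesOver q.asIdeal →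
      ((DegOne.primeBelow q : ℕ) : 𝓞 M) ∈ Q := by
    intro q Q hQq
    have h1 : ((DegOne.primeBelow q : ℕ) : 𝓞 K) ∈ q.asIdeal := by
      have h := (DegOne.liesOver_primeBelow q).over
      have h2 : ((DegOne.primeBelow q : ℕ) : ℤ) ∈ Ideal.span {((DegOne.primeBelow q : ℕ) : ℤ)} :=
        Ideal.subset_span rfl
      rw [h] at h2
      simpa using h2
    have h3 := hQq.over
    rw [h3] at h1
    simpa using h1
  have hSram : ∀ q ∉ S, ∀ Q : Ideal (𝓞 M), Q.IsPrime → Q.LiesOver q.asIdeal →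
      Q.ramificationIdx (𝓞 K) = 1 := by
    intro q hq Q hQ hQq
    exact ramificationIdx_eq_one_of_not_dvd_discr (DegOne.primeBelow_prime q) (hnotdvd q hq) Q
      (hmemQ q Q hQq)
  -- the weak Chebotarev prime
  obtain ⟨q, hqS, hqp, hgen⟩ := exists_degOne_prime_frob_generates (K := K) (N := M) S hSram
  set ℓ : ℕ := absNorm q.asIdeal with hℓ
  have hℓq : DegOne.primeBelow q = ℓ := by
    have h1 := DegOne.primeBelow_pow_inertiaDeg q
    have hp := DegOne.primeBelow_prime q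
    rw [← hℓ] at h1
    have h2 : DegOne.primeBelow q ∣ ℓ := by
      rw [← h1]
      exact dvd_pow_self _ (Ideal.inertiaDeg_pos q.asIdeal ℤ).ne'
    exact (Nat.prime_dvd_prime_iff_eq hp hqp).mp h2
  have hℓS₀ : ℓ ∉ S₀ := by
    intro h
    apply hqS
    rw [hS, Set.Finite.mem_toFinset, Set.mem_ofPred_eq, hℓq, hT]
    exact Finset.mem_union_left _ h
  have hℓd : ¬ (ℓ : ℤ) ∣ NumberField.discr M := by
    have := hnotdvd q hqS
    rwa [hℓq] at this
  -- a prime of `𝓞 M` over `q`, a prime of `ℤ̄` over it, a Frobenius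
  obtain ⟨⟨Q, hQ, hQq⟩⟩ := Ideal.nonempty_primesOver (S := 𝓞 M) q.asIdeal
  haveI := hQ
  haveI := hQq
  have hℓQ : (ℓ : 𝓞 M) ∈ Q := by
    have := hmemQ q Q hQq
    rwa [hℓq] at this
  have hQ0 : Q ≠ ⊥ := Ideal.ne_bot_of_liesOver_of_ne_bot q.ne_bot Q
  obtain ⟨𝔓, h𝔓max, h𝔓ℓ, h𝔓Q⟩ := exists_maximal_over M Q hQ0 hqp hℓQ
  haveI := h𝔓max
  haveI := h𝔓ℓ
  haveI : Fact ℓ.Prime := ⟨hqp⟩
  haveI : 𝔓.IsPrime := h𝔓max.isPrime
  obtain ⟨φ, hφ𝔓, hφ⟩ := exists_frob_stabilizer ℓ 𝔓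
  set τ : M ≃ₐ[ℚ] M := AlgEquiv.restrictNormalHom M φ with hτ
  -- `τ` is a Frobenius at `Q`
  have hτfrob : ∀ x : 𝓞 M, τ • x - x ^ ℓ ∈ Q := by
    intro x
    rw [← h𝔓Q, Ideal.mem_comap]
    have h1 := hφ (toZbar M x)
    have h2 : toZbar M (τ • x - x ^ ℓ) = φ • toZbar M x - toZbar M x ^ ℓ := by
      apply Subtype.ext
      rw [map_sub, map_pow]
      simp only [Subalgebra.coe_sub, Subalgebra.coe_pow, coe_toZbar]
      congr 1
      exact AlgEquiv.restrictNormal_commutes φ M ((x : 𝓞 M) : M)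
    rw [h2]
    exact h1
  -- the Frobenius of `q` in `Gal(M/K)`, as an element of `Gal(M/ℚ)`
  set τ₀ : M ≃ₐ[ℚ] M := AlgEquiv.restrictScalars ℚ (frob K M q) with hτ₀
  have hτ₀frob : ∀ x : 𝓞 M, τ₀ • x - x ^ ℓ ∈ Q := by
    intro x
    have h1 := frob_smul_sub_pow_mem K M q Q x
    exact h1
  have hττ₀ : τ = τ₀ := eq_of_frobenius_congr M hqp hℓd Q hℓQ hτfrob hτ₀frob
  -- `σ` is a power of `τ₀`
  have hσC : σ ∈ C := Subgroup.mem_zpowers σ
  set e := IntermediateField.subgroupEquivAlgEquiv C with he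
  have hmem : e ⟨σ, hσC⟩ ∈ Subgroup.zpowers (frob K M q) := by rw [hgen]; trivial
  rw [← (isOfFinOrder_of_finite (frob K M q)).mem_powers_iff_mem_zpowers,
    Submonoid.mem_powers_iff] at hmem
  obtain ⟨j, hj⟩ := hmem
  refine ⟨ℓ, Vloc 𝔓 ℓ, φ, j, hqp, hℓS₀, natCast_mem_nonunits_Vloc 𝔓 ℓ,
    isFrobeniusAt_Vloc 𝔓 ℓ hφ𝔓 hφ, ?_⟩
  intro x hx
  have h1 : g x = ((σ ⟨x, hx⟩ : M) : Qb) :=
    (AlgEquiv.restrictNormal_commutes g M ⟨x, hx⟩).symm
  have h2 : (φ ^ j) x = (((τ ^ j) ⟨x, hx⟩ : M) : Qb) := by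
    rw [hτ, ← map_pow]
    exact (AlgEquiv.restrictNormal_commutes (φ ^ j) M ⟨x, hx⟩).symm
  rw [h1, h2, hττ₀]
  congr 1
  have h3 : (σ ⟨x, hx⟩ : M) = (e ⟨σ, hσC⟩) ⟨x, hx⟩ := rfl
  rw [h3, ← hj]
  have h4 : ∀ (n : ℕ) (y : M), ((frob K M q) ^ n) y = (τ₀ ^ n) y := by
    intro n
    induction n with
    | zero => intro y; rfl
    | succ n ih =>
      intro y
      rw [pow_succ, pow_succ, AlgEquiv.mul_apply, AlgEquiv.mul_apply, ih]
      rfl
  exact h4 j ⟨x, hx⟩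

end Main

end Fermat.Agent.S31lib
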